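import Fermat.Agent.S33.GalP.ValBridge
import Fermat.Agent.S33.HeckeP.Main
import Fermat.Agent.S33.Contract
import Fermat.Agent.DR.Final
import Fermat.Agent.GAL.Tors.HeckeInput

/-!
# S33 / GalP : the geometric contract `KVNewOrd M p` at neat levels, from the abstract (T1) and the contract with VAL.
-/

set_option autoImplicit false
set_option linter.unusedSectionVars false
set_option linter.style.haveILetI false

noncomputable section

namespace Fermat.Agent.S33.GalP

open ModularCurve AlgebraicCurve Fermat.Agent.S24 Fermat.Agent.GAL Fermat.Agent.GAL.RED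
  Fermat.Agent.DR Fermat.Agent.DR.Gal Fermat.Agent.GAL.Igusa Fermat.Agent.S33.HeckeP

theorem finite_KV (N m : ℕ) [NeZero N] [NeZero m] : Finite (KV Kbar (FN N) m) := by
  obtain ⟨D⟩ := Tors.nonempty_torsDatum' N
  exact Finite.of_equiv _ (D.e m).toEquiv

/-- **The geometric contract from the contract with VAL.** -/
theorem kvNewOrd_of_valContract (M p : ℕ) [NeZero M] [NeZero p] (hp : p.Prime) (hpM : ¬ p ∣ M)
    (hneat : 4 ∣ M ∨ 9 ∣ M)
    (hV : ∀ (A : ValuationSubring Kbar) (hA : A.LiesOverPrime p) (k : ℕ),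
      ValContract (Conc.TT A M p hp hpM hA) (p ^ k)) : KVNewOrd M p := by
  intro k A hA x hx1 hx2 hxaug τ hτ a ha
  haveI : Fact p.Prime := ⟨hp⟩
  haveI := Hecke.charP_residueField A hp hA
  haveI := perfectRing_residueField p A
  haveI : Lib.RR.IsFF Kbar (FN (M * p)) := Fermat.Agent.GAL.Desc.isFF_FF_Kbar (M * p)
  haveI : Lib.RR.IsFF Kbar (FN M) := Fermat.Agent.GAL.Desc.isFF_FF_Kbar M
  haveI := Igusa.isAlgClosed_residueField A
  have hM := Conc.natCast_M_ne_zero A M p hp hpM hA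
  haveI := Igusa.isFF_E (IsLocalRing.ResidueField ↥A) M hM
  have hg : Conc.GoodRed A M := Conc.goodRed_of_neat A M hM Igusa.cuspUpper Igusa.cuspLower hneat
  have hP := Conc.pairHyp A M p hp hpM hA hg
  obtain ⟨a₀, hN⟩ := hP.isPreNodal
  haveI : Fintype ↥(hP.filt.nodes) := hP.filt.finite_nodes.fintype
  have hm : 0 < p ^ k := pow_pos hp.pos k
  haveI : NeZero (p ^ k) := ⟨hm.ne'⟩
  haveI := finite_KV (M * p) (p ^ k)
  have hK : x ∈ Klev (Conc.R1 A M p hp hpM hA) (p ^ k) 1 ⊓ Klev (Conc.R2 A M p hp hpM hA) (p ^ k) 1 := by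
    refine (AddSubgroup.closure_le _).2 ?_ hxaug
    rintro _ ⟨τ', hτ', z, -, rfl⟩
    have := inertia_smul_sub_mem A M p hp hpM hA hm τ' hτ' z
    exact ⟨mem_Klev_one_iff.2 this.1, mem_Klev_one_iff.2 this.2⟩
  have hdeep := deep_of_new A M p hp hpM hA ((mem_newKV M p).2 ⟨hx1, hx2⟩)
    ⟨mem_Klev_one_iff.1 hK.1, mem_Klev_one_iff.1 hK.2⟩
  have hD : x ∈ DeepAll (Conc.TT A M p hp hpM hA) (p ^ k) := by
    rw [mem_DeepAll]
    intro i
    fin_cases i
    · exact hdeep.1
    · exact hdeep.2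
  have hin : ∀ i, Inertial ((Conc.TT A M p hp hpM hA).R i) (gal (M * p) τ) := by
    intro i
    fin_cases i
    · exact fun f hf => ⟨(compat_R1_of_inertia A M p hp hpM hA τ hτ).mem f hf,
        (compat_R1_of_inertia A M p hp hpM hA τ hτ).red f hf⟩
    · exact fun f hf => ⟨(compat_R2_of_inertia A M p hp hpM hA τ hτ).mem f hf,
        (compat_R2_of_inertia A M p hp hpM hA τ hτ).red f hf⟩
  exact smul_eq_of_deepAll hN hm (hV A hA k) (gal (M * p) τ) hin (Conc.gal_xC M p τ) a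
    (fun z hz => ha z hz) hD

section side

variable (A : ValuationSubring Kbar) (M p : ℕ) [NeZero M] [NeZero p] (hp : p.Prime)
  (hpM : ¬ p ∣ M) (hA : A.LiesOverPrime p)

theorem fin_TT_hasScales : S36.Abs.HasScales (Conc.TT A M p hp hpM hA) := by
  intro i w hw
  fin_cases i
  · obtain ⟨a, ha, h⟩ := Conc.R1_scale A M p hp hpM hA w hw
    exact ⟨a, ha, by rw [Algebra.smul_def]; exact h⟩
  · obtain ⟨a, ha, h⟩ := Conc.R2_scale A M p hp hpM hA w hw
    exact ⟨a, ha, by rw [Algebra.smul_def]; exact h⟩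

theorem fin_TT_rankOne : S36.Abs.RankOne (Conc.TT A M p hp hpM hA) := by
  intro a b _ ha'
  have h1 : a ∈ A.nonunits := (S36.Val.Basic_mem_nonunits_iff A a).2 (Or.inr ha')
  obtain ⟨r, hr⟩ := Conc.exists_pow_mul_mem_nonunits A p hp hA a h1 b
  exact ⟨r, ValuationSubring.nonunits_subset hr⟩

theorem fin_TT_small : ∃ c : Kbar, c ≠ 0 ∧ c⁻¹ ∉ (Conc.TT A M p hp hpM hA).A := by
  refine ⟨(p : Kbar), Nat.cast_ne_zero.2 hp.ne_zero, ?_⟩
  have h1 : (p : Kbar) ∈ A.nonunits := hA
  rcases (S36.Val.Basic_mem_nonunits_iff A _).1 h1 with h | h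
  · exact absurd h (Nat.cast_ne_zero.2 hp.ne_zero)
  · exact h

theorem TT_valContract (k : ℕ) : ValContract (Conc.TT A M p hp hpM hA) (p ^ k) := by
  haveI := Igusa.isAlgClosed_residueField A
  exact valContract_of (by
    rw [Nat.cast_pow]
    exact pow_ne_zero _ (Nat.cast_ne_zero.2 hp.ne_zero)) _ (Conc.TT_sep A M p hp hpM hA)
    (fin_TT_hasScales A M p hp hpM hA) (fin_TT_rankOne A M p hp hpM hA) (fin_TT_small A M p hp hpM hA)

end side

/-- **The geometric contract of S33 at neat levels.** -/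
theorem kvNewOrdNeat : KVNewOrdNeat := by
  intro M p _ _ hp _ hpM h4
  exact kvNewOrd_of_valContract M p hp hpM (Or.inl h4)
    (fun A hA k => TT_valContract A M p hp hpM hA k)

end Fermat.Agent.S33.GalP
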