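import Fermat.Agent.S33.GalP.Commute

/-!
# S33 / GalP : an extension of an inertial automorphism permutes the valuations of the cover

`E / F` a finite Galois cover with group `G`, `T'` the family of reductions of `E` indexed by `ι × G` (`SplitCover T T'`, `T'.Sep`).
`sg` a semilinear automorphism of `F` which preserves the valuations of `T` and acts trivially on their residue fields,
`φ` any extension of `sg` to `E`.  Then `IsLift T' φ π` for a family of permutations `π` (`exists_isLift`).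

MAIN THEOREM of the abstract part of block GALP: `exists_commuting`.
-/

set_option autoImplicit false
set_option linter.unusedSectionVars false

namespace Fermat.Agent.S33.GalP

open AlgebraicCurve Fermat.Agent.Lib.RR Fermat.Agent.GAL Fermat.Agent.GAL.RED Fermat.Agent.DR.Abs
  Fermat.Agent.S33.Cover Polynomial

section inertial

variable {K F k Fb : Type*} [Field K] [Field F] [Algebra K F] [Field k] [Field Fb] [Algebra k Fb]

/-- `sg` preserves the valuation ring and acts trivially on the residue field. -/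
def Inertial (R : RedData K F k Fb) (sg : SemilinearAut K F) : Prop :=
  ∀ f ∈ R.O, sg • f ∈ R.O ∧ R.red (sg • f) = R.red f

theorem Inertial.inv {R : RedData K F k Fb} {sg : SemilinearAut K F} (h : Inertial R sg) :
    Inertial R sg⁻¹ := by
  intro f hf
  have hmem : sg⁻¹ • f ∈ R.O := by
    by_contra hu
    have hu' : (sg⁻¹ • f)⁻¹ ∈ R.O := (R.O.mem_or_inv_mem _).resolve_left hu
    have h0 : R.red (sg⁻¹ • f)⁻¹ = 0 := by
      rw [R.red_inv, R.red_of_not_mem hu, inv_zero]
    have h1 := (h _ hu').2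
    rw [smul_inv'', smul_inv_smul, h0, R.red_inv, inv_eq_zero] at h1
    have hf0 : f ≠ 0 := by
      rintro rfl
      rw [smul_zero] at hu
      exact hu R.O.zero_mem
    have h2 : f⁻¹ ∈ R.O := by
      have := (h _ hu').1
      rwa [smul_inv'', smul_inv_smul] at this
    have h3 := R.red_mul hf h2
    rw [mul_inv_cancel₀ hf0, R.red_one, h1, zero_mul] at h3
    exact one_ne_zero h3
  refine ⟨hmem, ?_⟩
  have := (h _ hmem).2
  rw [smul_inv_smul] at this
  exact this.symm

end inertial

section intclosed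

variable {E : Type*} [Field E]

/-- valuation rings are integrally closed. -/
theorem mem_of_monic_root (V : ValuationSubring E) {Q : E[X]} (hQ : Q.Monic)
    (hc : ∀ n, Q.coeff n ∈ V) {z : E} (hz : Q.eval z = 0) : z ∈ V := by
  have hl : Q ∈ Polynomial.lifts V.subtype := by
    rw [Polynomial.lifts_iff_coeff_lifts]
    intro n
    exact ⟨⟨_, hc n⟩, rfl⟩
  obtain ⟨q, hq, -, hqm⟩ := Polynomial.lifts_and_natDegree_eq_and_monic hl hQ
  have h1 : IsIntegral V z := by
    refine ⟨q, hqm, ?_⟩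
    have : Polynomial.eval₂ V.subtype z q = 0 := by
      rw [Polynomial.eval₂_eq_eval_map, hq, hz]
    exact this
  obtain ⟨a, ha⟩ := (IsIntegrallyClosed.isIntegral_iff (R := V) (K := E)).1 h1
  rw [← ha]
  exact a.2

end intclosed

variable {K F E k : Type*} [Field K] [Field F] [Field E] [Algebra K F] [Algebra K E] [Algebra F E]
  [IsScalarTower K F E] [Field k] {ι : Type*} {Fb : ι → Type*} [∀ i, Field (Fb i)]
  [∀ i, Algebra k (Fb i)] [FiniteDimensional F E] [IsGalois F E]
  {T : MultiRed K F k Fb} {T' : MultiRed K E k (fun j : ι × (E ≃ₐ[F] E) => Fb j.1)}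

/-- the coefficients of the characteristic polynomial of an element which is integral above `i`. -/
theorem exists_coeff_charpoly (hC : SplitCover T T') {i : ι} {w : E}
    (hw : ∀ g, w ∈ (T'.R (i, g)).O) (n : ℕ) :
    ∃ f ∈ (T.R i).O, algebraMap F E f = (MulSemiringAction.charpoly (E ≃ₐ[F] E) w).coeff n := by
  classical
  have hfix : ∀ c : E ≃ₐ[F] E, c ((MulSemiringAction.charpoly (E ≃ₐ[F] E) w).coeff n) =
      (MulSemiringAction.charpoly (E ≃ₐ[F] E) w).coeff n := fun c =>
    MulSemiringAction.smul_coeff_charpoly w n c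
  obtain ⟨f, hf⟩ := (IsGalois.mem_range_algebraMap_iff_fixed _).2 hfix
  refine ⟨f, ?_, hf⟩
  rw [← hC.mem_iff i 1, hf]
  have hl : MulSemiringAction.charpoly (E ≃ₐ[F] E) w ∈
      Polynomial.lifts (T'.R (i, 1)).O.subtype := by
    rw [MulSemiringAction.charpoly_eq]
    refine prod_mem fun c _ => ?_
    have hcw : c • w ∈ (T'.R (i, 1)).O := by
      have := (hC.map_mem_iff i (c⁻¹ * 1) c w).2 (hw _)
      rwa [mul_inv_cancel_left] at this
    refine ⟨X - C ⟨c • w, hcw⟩, ?_⟩
    simp
  obtain ⟨a, ha⟩ := (Polynomial.lifts_iff_coeff_lifts _).1 hl n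
  rw [← ha]
  exact a.2

/-- **Integrality.** An extension of an automorphism preserving `O_i` preserves `⋂_g O_(i,g)`. -/
theorem smul_mem_of_forall_mem (hC : SplitCover T T') {φ : SemilinearAut K E}
    {sg : SemilinearAut K F} (hφ : ∀ f : F, φ • algebraMap F E f = algebraMap F E (sg • f)) {i : ι}
    (hin : ∀ f ∈ (T.R i).O, sg • f ∈ (T.R i).O) {w : E} (hw : ∀ g, w ∈ (T'.R (i, g)).O)
    (g : E ≃ₐ[F] E) : φ • w ∈ (T'.R (i, g)).O := by
  classical
  refine mem_of_monic_root _
    (Q := (MulSemiringAction.charpoly (E ≃ₐ[F] E) w).map (SemilinearAut.toRingAut φ : E →+* E))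
    ((MulSemiringAction.monic_charpoly _ w).map _) (fun n => ?_) ?_
  · obtain ⟨f, hf, hfn⟩ := exists_coeff_charpoly hC hw n
    rw [Polynomial.coeff_map, ← hfn]
    show φ • algebraMap F E f ∈ _
    rw [hφ, hC.mem_iff]
    exact hin f hf
  · rw [Polynomial.eval_map]
    show Polynomial.eval₂ _ ((SemilinearAut.toRingAut φ : E →+* E) w) _ = 0
    rw [Polynomial.eval₂_at_apply, MulSemiringAction.eval_charpoly, map_zero]

/-- **Jacobson radical.** -/
theorem red_smul_eq_zero (hC : SplitCover T T') {φ : SemilinearAut K E}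
    {sg : SemilinearAut K F} (hφ : ∀ f : F, φ • algebraMap F E f = algebraMap F E (sg • f)) {i : ι}
    (hin : Inertial (T.R i) sg) {w : E} (hw : ∀ g, w ∈ (T'.R (i, g)).O)
    (hw0 : ∀ g, (T'.R (i, g)).red w = 0) (g : E ≃ₐ[F] E) : (T'.R (i, g)).red (φ • w) = 0 := by
  by_contra hne
  have hmem := fun {w : E} (hw : ∀ g, w ∈ (T'.R (i, g)).O) g =>
    smul_mem_of_forall_mem hC hφ (fun f hf => (hin f hf).1) hw g
  obtain ⟨f, hf, hfr⟩ := (T.R i).exists_lift (-((T'.R (i, g)).red (φ • w))⁻¹)
  have hb : ∀ g, algebraMap F E f ∈ (T'.R (i, g)).O := fun g => (hC.mem_iff i g f).2 hf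
  have hu : ∀ g, 1 + w * algebraMap F E f ∈ (T'.R (i, g)).O := fun g =>
    (T'.R (i, g)).O.add_mem _ _ (T'.R (i, g)).O.one_mem ((T'.R (i, g)).O.mul_mem _ _ (hw g) (hb g))
  have hur : ∀ g, (T'.R (i, g)).red (1 + w * algebraMap F E f) = 1 := fun g => by
    rw [(T'.R (i, g)).red_add (T'.R (i, g)).O.one_mem ((T'.R (i, g)).O.mul_mem _ _ (hw g) (hb g)),
      (T'.R (i, g)).red_mul (hw g) (hb g), hw0, zero_mul, add_zero, RedData.red_one]
  have hui : ∀ g, (1 + w * algebraMap F E f)⁻¹ ∈ (T'.R (i, g)).O := fun g =>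
    (T'.R (i, g)).inv_mem_of_red_ne_zero (by rw [hur]; exact one_ne_zero)
  have hu0 : 1 + w * algebraMap F E f ≠ 0 :=
    (T'.R (i, g)).ne_zero_of_red_ne_zero (by rw [hur]; exact one_ne_zero)
  have e1 := (T'.R (i, g)).red_mul (hmem hu g) (hmem hui g)
  rw [← smul_mul', mul_inv_cancel₀ hu0, smul_one, RedData.red_one] at e1
  have e2 : (T'.R (i, g)).red (φ • (1 + w * algebraMap F E f)) = 0 := by
    rw [smul_add, smul_one, smul_mul',
      (T'.R (i, g)).red_add (T'.R (i, g)).O.one_mem
        ((T'.R (i, g)).O.mul_mem _ _ (hmem hw g) (hmem hb g)),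
      (T'.R (i, g)).red_mul (hmem hw g) (hmem hb g), hφ, hC.red_algebraMap, (hin f hf).2, hfr,
      RedData.red_one, mul_neg, mul_inv_cancel₀ hne, add_neg_cancel]
  rw [e2, zero_mul] at e1
  exact one_ne_zero e1

/-- `red_(i,g) ∘ φ` is one of the `red_(i,h)`. -/
theorem exists_red_smul_eq (hC : SplitCover T T') (hS : T'.Sep) {φ : SemilinearAut K E}
    {sg : SemilinearAut K F} (hφ : ∀ f : F, φ • algebraMap F E f = algebraMap F E (sg • f)) {i : ι}
    (hin : Inertial (T.R i) sg) (g : E ≃ₐ[F] E) :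
    ∃ h : E ≃ₐ[F] E, ∀ w : E, (∀ g, w ∈ (T'.R (i, g)).O) →
      (T'.R (i, g)).red (φ • w) = (T'.R (i, h)).red w := by
  classical
  have hmem := fun {w : E} (hw : ∀ g, w ∈ (T'.R (i, g)).O) g =>
    smul_mem_of_forall_mem hC hφ (fun f hf => (hin f hf).1) hw g
  choose ε hε using fun h : E ≃ₐ[F] E =>
    hS (fun j => if j = (i, h) then 1 else 0) (fun _ => 1) (fun _ => one_ne_zero)
  simp only [one_smul] at hε
  have hεO : ∀ h g, ε h ∈ (T'.R (i, g)).O := fun h g => (hε h (i, g)).1
  -- some `ε h` survives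
  have hex : ∃ h, (T'.R (i, g)).red (φ • ε h) ≠ 0 := by
    by_contra hall
    push Not at hall
    have hsO : ∀ g, ∑ h, ε h - 1 ∈ (T'.R (i, g)).O := fun g =>
      (T'.R (i, g)).O.sub_mem (sum_mem fun h _ => hεO h g) (T'.R (i, g)).O.one_mem
    have h0 := red_smul_eq_zero hC hφ hin hsO (fun g' => by
      rw [(T'.R (i, g')).red_sub (sum_mem fun h _ => hεO h g') (T'.R (i, g')).O.one_mem,
        (T'.R (i, g')).red_sum _ _ (fun h _ => hεO h g'), RedData.red_one, sub_eq_zero,
        Finset.sum_eq_single g']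
      · rw [(hε g' (i, g')).2, if_pos rfl]
      · intro h _ hne
        rw [(hε h (i, g')).2, if_neg]
        intro h1
        exact hne (Prod.ext_iff.1 h1).2.symm
      · intro h1
        exact absurd (Finset.mem_univ _) h1) g
    rw [smul_sub, smul_one, Finset.smul_sum,
      (T'.R (i, g)).red_sub (sum_mem fun h _ => hmem (hεO h) g) (T'.R (i, g)).O.one_mem,
      (T'.R (i, g)).red_sum _ _ (fun h _ => hmem (hεO h) g), RedData.red_one,
      Finset.sum_eq_zero (fun h _ => hall h), zero_sub, neg_eq_zero] at h0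
    exact one_ne_zero h0
  obtain ⟨h, hh⟩ := hex
  refine ⟨h, fun w hw => ?_⟩
  obtain ⟨f, hf, hfr⟩ := (T.R i).exists_lift ((T'.R (i, h)).red w)
  have hb : ∀ g, algebraMap F E f ∈ (T'.R (i, g)).O := fun g => (hC.mem_iff i g f).2 hf
  have hd : ∀ g, w - algebraMap F E f ∈ (T'.R (i, g)).O := fun g =>
    (T'.R (i, g)).O.sub_mem (hw g) (hb g)
  have h0 := red_smul_eq_zero hC hφ hin
    (w := (w - algebraMap F E f) * ε h) (fun g => (T'.R (i, g)).O.mul_mem _ _ (hd g) (hεO h g))
    (fun g' => by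
      rw [(T'.R (i, g')).red_mul (hd g') (hεO h g'), (hε h (i, g')).2]
      by_cases hg : g' = h
      · subst hg
        rw [(T'.R (i, g')).red_sub (hw g') (hb g'), hC.red_algebraMap, hfr, sub_self, zero_mul]
      · rw [if_neg, mul_zero]
        intro h1
        exact hg (Prod.ext_iff.1 h1).2) g
  rw [smul_mul', (T'.R (i, g)).red_mul (hmem hd g) (hmem (hεO h) g)] at h0
  have h1 := (mul_eq_zero.1 h0).resolve_right hh
  rw [smul_sub, (T'.R (i, g)).red_sub (hmem hw g) (hmem hb g), sub_eq_zero, hφ,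
    hC.red_algebraMap, (hin f hf).2, hfr] at h1
  exact h1

/-- **An extension of an inertial automorphism is a lift.** -/
theorem exists_isLift (hC : SplitCover T T') (hS : T'.Sep) {φ : SemilinearAut K E}
    {sg : SemilinearAut K F} (hφ : ∀ f : F, φ • algebraMap F E f = algebraMap F E (sg • f))
    (hin : ∀ i, Inertial (T.R i) sg) : ∃ π : ι → Equiv.Perm (E ≃ₐ[F] E), IsLift T' φ π := by
  classical
  have hφ' : ∀ f : F, φ⁻¹ • algebraMap F E f = algebraMap F E (sg⁻¹ • f) := fun y => by
    rw [inv_smul_eq_iff, hφ, smul_inv_smul]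
  choose p hp using fun (i : ι) (g : E ≃ₐ[F] E) =>
    exists_red_smul_eq hC hS hφ' (hin i).inv g
  have hmem := fun {i : ι} {w : E} (hw : ∀ g, w ∈ (T'.R (i, g)).O) g =>
    smul_mem_of_forall_mem hC hφ (fun f hf => (hin i f hf).1) hw g
  have hinj : ∀ i, Function.Injective (p i) := by
    intro i g₁ g₂ h12
    by_contra hne
    obtain ⟨y, hy⟩ := hS (fun j => if j = (i, g₁) then 1 else 0) (fun _ => 1)
      (fun _ => one_ne_zero)
    simp only [one_smul] at hy
    have hyO : ∀ g, y ∈ (T'.R (i, g)).O := fun g => (hy (i, g)).1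
    have e1 := hp i g₁ (φ • y) (hmem hyO)
    have e2 := hp i g₂ (φ • y) (hmem hyO)
    rw [inv_smul_smul] at e1 e2
    rw [h12, ← e2, (hy _).2, (hy _).2, if_pos rfl, if_neg] at e1
    · exact one_ne_zero e1
    · intro h1
      exact hne (Prod.ext_iff.1 h1).2.symm
  refine ⟨fun i => Equiv.ofBijective (p i) (Finite.injective_iff_bijective.1 (hinj i)),
    fun y hy => ?_, fun i g y hy => ?_⟩
  · rintro ⟨i, g⟩
    exact hmem (fun g => hy (i, g)) g
  · have e1 := hp i g (φ • y) (hmem fun g => hy (i, g))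
    rw [inv_smul_smul] at e1
    exact e1.symm

variable [IsFF K E] [IsAlgClosed K] [∀ i, IsFF k (Fb i)] [IsAlgClosed k] [Fintype ι]
  {Nd : Type*} [Fintype Nd]

/-- **MAIN THEOREM (abstract rigidity).**  An inertial automorphism `sg` of `F` fixing the coordinate has an extension to the
(nodal, totally split) Galois cover `E` which commutes with the deck transformations. -/
theorem exists_commuting (hC : SplitCover T T') {x : F}
    {N' : NodeData k (fun j : ι × (E ≃ₐ[F] E) => Fb j.1) Nd} {a₁ : ℕ}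
    (h' : IsPreNodal T' (algebraMap F E x) N' a₁) {sg : SemilinearAut K F}
    {φ : SemilinearAut K E} (hφ : ∀ f : F, φ • algebraMap F E f = algebraMap F E (sg • f))
    (hin : ∀ i, Inertial (T.R i) sg) (hx : sg • x = x) :
    ∃ ψ : SemilinearAut K E, (∀ f : F, ψ • algebraMap F E f = algebraMap F E (sg • f)) ∧
      ∀ (c : E ≃ₐ[F] E) (y : E), ψ • c y = c (ψ • y) := by
  classical
  obtain ⟨π, hπ⟩ := exists_isLift hC h'.sep hφ hin
  obtain ⟨c₀, hc₀⟩ := exists_deck_commute hC h' (fun c => c.commutes x) hπ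
    (by rw [hφ, hx]) (exists_conj φ sg hφ)
  refine ⟨deck K c₀ * φ, fun f => ?_, hc₀⟩
  rw [mul_smul, hφ, deck_smul, c₀.commutes]

end Fermat.Agent.S33.GalP
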