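import Mathlib

/-!
# S33 / GalP : a valuation subring of an algebraic extension of `ℚ` in which a prime `q` is not invertible has rank one.
-/

set_option autoImplicit false

namespace Fermat.Agent.S33.GalP

open Polynomial

variable {L : Type*} [Field L] (A : ValuationSubring L) {q : ℕ}

theorem RankOne_valuation_int_le (n : ℤ) : A.valuation (n : L) ≤ 1 :=
  (A.valuation_le_one_iff _).2 (intCast_mem A n)

/-- an integer prime to `q` is a unit. -/
theorem RankOne_valuation_int_eq_one (hq : q.Prime) (hA : A.valuation (q : L) < 1) {c : ℤ}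
    (hc : ¬ (q : ℤ) ∣ c) : A.valuation (c : L) = 1 := by
  have hcop : IsCoprime c (q : ℤ) :=
    ((Nat.prime_iff_prime_int.1 hq).coprime_iff_not_dvd.2 hc).symm
  obtain ⟨s, t, hst⟩ := hcop
  have h1 : ((s : L) * (c : L)) = 1 - (t : L) * (q : L) := by
    have : ((s * c + t * (q : ℤ) : ℤ) : L) = 1 := by rw [hst]; simp
    push_cast at this
    rw [← this]
    ring
  have h2 : A.valuation ((t : L) * (q : L)) < 1 := by
    rw [map_mul]
    exact lt_of_le_of_lt (mul_le_of_le_one_left' (RankOne_valuation_int_le A t)) hA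
  have h3 : A.valuation ((s : L) * (c : L)) = 1 := by
    rw [h1]
    exact Valuation.map_one_sub_of_lt _ h2
  rw [map_mul] at h3
  refine le_antisymm (RankOne_valuation_int_le A c) ?_
  rw [← h3]
  exact mul_le_of_le_one_left' (RankOne_valuation_int_le A s)

/-- a nonzero integer is bounded below by a power of `q`. -/
theorem RankOne_exists_pow_le_int (hq : q.Prime) (hA : A.valuation (q : L) < 1) {d : ℤ}
    (hd : d ≠ 0) : ∃ r : ℕ, A.valuation (q : L) ^ r ≤ A.valuation (d : L) := by
  have hfin : FiniteMultiplicity (q : ℤ) d := by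
    rw [Int.finiteMultiplicity_iff]
    refine ⟨?_, hd⟩
    rw [Int.natAbs_natCast]
    exact hq.one_lt.ne'
  obtain ⟨c, hc, hqc⟩ := hfin.exists_eq_pow_mul_and_not_dvd
  refine ⟨multiplicity (q : ℤ) d, ?_⟩
  have : (d : L) = (q : L) ^ multiplicity (q : ℤ) d * (c : L) := by
    conv_lhs => rw [hc]
    push_cast
    rfl
  rw [this, map_mul, map_pow, RankOne_valuation_int_eq_one A hq hA hqc, mul_one]

variable [CharZero L] [Algebra.IsAlgebraic ℚ L]

/-- every element is bounded by a power of `q⁻¹`. -/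
theorem RankOne_exists_pow_mul_le (hq : q.Prime) (hA : A.valuation (q : L) < 1) (b : L) :
    ∃ r : ℕ, A.valuation (q : L) ^ r * A.valuation b ≤ 1 := by
  have halg : IsAlgebraic ℤ b :=
    (IsFractionRing.isAlgebraic_iff ℤ ℚ L).2 (Algebra.IsAlgebraic.isAlgebraic b)
  obtain ⟨d, hd, hint⟩ := halg.exists_integral_multiple
  obtain ⟨r, hr⟩ := RankOne_exists_pow_le_int A hq hA hd
  refine ⟨r, ?_⟩
  have hmem : d • b ∈ A := by
    have h1 : IsIntegral A (d • b) := hint.tower_top
    obtain ⟨a, ha⟩ := (IsIntegrallyClosed.isIntegral_iff (R := A) (K := L)).1 h1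
    rw [← ha]
    exact a.2
  have h2 := (A.valuation_le_one_iff _).2 hmem
  rw [zsmul_eq_mul, map_mul] at h2
  exact le_trans (mul_le_mul_left hr _) h2

/-- a power of an element of the maximal ideal is divisible by `q`. -/
theorem RankOne_exists_pow_le (hq : q.Prime) (hA : A.valuation (q : L) < 1) {a : L}
    (ha : A.valuation a < 1) : ∃ n : ℕ, A.valuation a ^ n ≤ A.valuation (q : L) := by
  classical
  rcases eq_or_ne a 0 with rfl | ha0
  · exact ⟨1, by simp⟩
  have halg : IsAlgebraic ℤ a :=
    (IsFractionRing.isAlgebraic_iff ℤ ℚ L).2 (Algebra.IsAlgebraic.isAlgebraic a)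
  obtain ⟨P₀, hP₀, hP₀a⟩ := halg
  set P := P₀.primPart with hP
  have hPa : aeval a P = 0 := aeval_primPart_eq_zero hP₀ hP₀a
  have hprim : P.IsPrimitive := P₀.isPrimitive_primPart
  have hex : ∃ j, ¬ (q : ℤ) ∣ P.coeff j := by
    by_contra hall
    push Not at hall
    have h1 : C (q : ℤ) ∣ P := (C_dvd_iff_dvd_coeff _ _).2 hall
    have h2 := hprim _ h1
    rw [Int.isUnit_iff] at h2
    have h3 := hq.one_lt
    omega
  set j := Nat.find hex with hj
  have hjc : ¬ (q : ℤ) ∣ P.coeff j := Nat.find_spec hex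
  have hlt : ∀ i < j, (q : ℤ) ∣ P.coeff i := fun i hi => by
    by_contra h
    exact Nat.find_min hex hi h
  refine ⟨j, ?_⟩
  have hva0 : A.valuation a ≠ 0 := (Valuation.ne_zero_iff _).2 ha0
  rw [aeval_eq_sum_range' (Nat.lt_succ_of_le (le_max_left P.natDegree j))] at hPa
  have hjm : j ∈ Finset.range (max P.natDegree j + 1) :=
    Finset.mem_range.2 (Nat.lt_succ_of_le (le_max_right _ _))
  rw [← Finset.add_sum_erase _ _ hjm] at hPa
  have hterm : A.valuation (P.coeff j • a ^ j) = A.valuation a ^ j := by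
    rw [zsmul_eq_mul, map_mul, RankOne_valuation_int_eq_one A hq hA hjc, one_mul, map_pow]
  have hsum : A.valuation (∑ i ∈ (Finset.range (max P.natDegree j + 1)).erase j, P.coeff i • a ^ i) ≤
      max (A.valuation (q : L)) (A.valuation a ^ (j + 1)) := by
    refine Valuation.map_sum_le _ (fun i hi => ?_)
    have hij : i ≠ j := (Finset.mem_erase.1 hi).1
    rw [zsmul_eq_mul, map_mul, map_pow]
    rcases lt_or_gt_of_ne hij with h | h
    · refine le_max_of_le_left ?_
      obtain ⟨e, he⟩ := hlt i h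
      rw [he]
      push_cast
      rw [map_mul, mul_assoc]
      refine mul_le_of_le_one_right' ?_
      exact mul_le_one' (RankOne_valuation_int_le A e) (pow_le_one' ha.le _)
    · refine le_max_of_le_right ?_
      refine le_trans (mul_le_of_le_one_left' (RankOne_valuation_int_le A _)) ?_
      exact pow_le_pow_right_of_le_one' ha.le h
  have heq : A.valuation (P.coeff j • a ^ j) =
      A.valuation (∑ i ∈ (Finset.range (max P.natDegree j + 1)).erase j, P.coeff i • a ^ i) := by
    rw [eq_neg_of_add_eq_zero_left hPa, Valuation.map_neg]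
  rw [hterm] at heq
  rw [← heq] at hsum
  rcases le_max_iff.1 hsum with h | h
  · exact h
  · exfalso
    rw [pow_succ] at h
    have : A.valuation a ^ j * A.valuation a < A.valuation a ^ j * 1 :=
      mul_lt_mul_of_pos_left ha (zero_lt_iff.2 (pow_ne_zero _ hva0))
    rw [mul_one] at this
    exact absurd h (not_le.2 this)

/-- **Rank one.** -/
theorem rankOne_of_prime (hq : q.Prime) (hA : (q : L) ∈ A.nonunits) (a b : L) (ha : a ∈ A)
    (ha' : a⁻¹ ∉ A) : ∃ n : ℕ, a ^ n * b ∈ A := by
  have hA' : A.valuation (q : L) < 1 := A.mem_nonunits_iff.1 hA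
  have hav : A.valuation a < 1 := by
    rcases eq_or_ne a 0 with rfl | ha0
    · simp
    refine lt_of_le_of_ne ((A.valuation_le_one_iff _).2 ha) (fun h => ha' ?_)
    rw [← A.valuation_le_one_iff, map_inv₀, h, inv_one]
  obtain ⟨n, hn⟩ := RankOne_exists_pow_le A hq hA' hav
  obtain ⟨r, hr⟩ := RankOne_exists_pow_mul_le A hq hA' b
  refine ⟨n * r, ?_⟩
  rw [← A.valuation_le_one_iff, map_mul, map_pow, pow_mul]
  exact le_trans (mul_le_mul_left (pow_le_pow_left' hn r) _) hr

end Fermat.Agent.S33.GalP
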