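import Fermat.Agent.DR.Final
import Fermat.Agent.S33.GalP.Perm
import Fermat.Agent.S33.GalP.RankOne
import Fermat.Agent.S36.Abs.Sep

/-!
# S33 / GalP : the concrete side conditions for `T = DR.Conc.TT A M q` (used with `q = p`)

`TT_hasScales`, `TT_rankOne`, `TT_small`, `TT_inertial`, `TT_isPreNodal`, `baseAut_gal`.
-/

set_option autoImplicit false
set_option linter.unusedSectionVars false

namespace Fermat.Agent.S33.GalP

open ModularCurve AlgebraicCurve Fermat.Agent.S24 Fermat.Agent.GAL Fermat.Agent.GAL.RED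
  Fermat.Agent.Lib.RR Fermat.Agent.DR Fermat.Agent.DR.Abs Fermat.Agent.DR.Gal

variable (A : ValuationSubring Kbar) (M q : ℕ) [NeZero M] [NeZero q] (hq : q.Prime)
  (hqM : ¬ q ∣ M) (hA : A.LiesOverPrime q)

theorem TT_hasScales : S36.Abs.HasScales (Conc.TT A M q hq hqM hA) := by
  intro i w hw
  fin_cases i
  · obtain ⟨a, ha, h⟩ := Conc.R1_scale A M q hq hqM hA w hw
    exact ⟨a, ha, by rw [Algebra.smul_def]; exact h⟩
  · obtain ⟨a, ha, h⟩ := Conc.R2_scale A M q hq hqM hA w hw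
    exact ⟨a, ha, by rw [Algebra.smul_def]; exact h⟩

theorem TT_rankOne : S36.Abs.RankOne (Conc.TT A M q hq hqM hA) :=
  haveI : Algebra.IsAlgebraic ℚ Kbar := AlgebraicClosure.isAlgebraic ℚ
  fun a b ha ha' => rankOne_of_prime A hq hA a b ha ha'

theorem TT_small : ∃ c : Kbar, c ≠ 0 ∧ c⁻¹ ∉ (Conc.TT A M q hq hqM hA).A := by
  refine ⟨(q : Kbar), Nat.cast_ne_zero.2 hq.ne_zero, ?_⟩
  have h : (q : Kbar) ∈ A.nonunits := hA
  rw [ValuationSubring.mem_nonunits_iff_or] at h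
  exact h.resolve_left (Nat.cast_ne_zero.2 hq.ne_zero)

theorem inertial_of_compat {K F k Fb : Type*} [Field K] [Field F] [Algebra K F] [Field k] [Field Fb]
    [Algebra k Fb] {R : RedData K F k Fb} {g : SemilinearAut K F}
    (h : Compat R g (RingEquiv.refl Fb)) : Inertial R g :=
  fun f hf => ⟨h.mem f hf, h.red f hf⟩

theorem TT_inertial {τ : GQ} (hτ : τ ∈ A.inertiaSubgroupIn ℚ) (i : Fin 2) :
    Inertial ((Conc.TT A M q hq hqM hA).R i) (gal (M * q) τ) := by
  fin_cases i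
  · exact inertial_of_compat (compat_R1_of_inertia A M q hq hqM hA τ hτ)
  · exact inertial_of_compat (compat_R2_of_inertia A M q hq hqM hA τ hτ)

theorem gal_smul_xC (τ : GQ) : gal (M * q) τ • Conc.xC M q = Conc.xC M q := Conc.gal_xC M q τ

set_option synthInstance.maxHeartbeats 400000 in
/-- **The pair `(R1, R2)` at a neat level is nodal** (any residue characteristic `q ∤ M`). -/
theorem TT_isPreNodal [Fact q.Prime] [CharP (IsLocalRing.ResidueField ↥A) q]
    [PerfectRing (IsLocalRing.ResidueField ↥A) q] [IsAlgClosed (IsLocalRing.ResidueField ↥A)]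
    [Lib.RR.IsFF (IsLocalRing.ResidueField ↥A) (Igusa.E (IsLocalRing.ResidueField ↥A) M)]
    [Lib.RR.IsFF Kbar (FN (M * q))] [Lib.RR.IsFF Kbar (FN M)] (hneat : 4 ∣ M ∨ 9 ∣ M) :
    ∃ (Nd : Type) (_ : Fintype Nd)
      (N : NodeData (IsLocalRing.ResidueField ↥A)
        (fun _ : Fin 2 => Igusa.E (IsLocalRing.ResidueField ↥A) M) Nd) (a₀ : ℕ),
      IsPreNodal (Conc.TT A M q hq hqM hA) (Conc.xC M q) N a₀ := by
  have hM := Conc.natCast_M_ne_zero A M q hq hqM hA
  have hg : Conc.GoodRed A M := Conc.goodRed_of_neat A M hM Igusa.cuspUpper Igusa.cuspLower hneat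
  have h := Conc.pairHyp A M q hq hqM hA hg
  obtain ⟨a₀, hN⟩ := h.isPreNodal
  exact ⟨_, h.filt.finite_nodes.fintype, _, a₀, hN⟩

end Fermat.Agent.S33.GalP
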