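import Fermat.Agent.S33.GalP.Rigid
import Fermat.Agent.S33.Cover.Main

/-!
# S33 / GalP : a lift of an inertial automorphism commutes with the deck transformations

`E / F` a Galois cover with group `G`, `T'` the family of reductions of `E` indexed by `ι × G` (`SplitCover T T'`), nodal.
`φ` a semilinear automorphism of `E` which normalises `G`, permutes the valuations over `ι`, acts trivially on the residue fields
and fixes the coordinate.  Then `c₀ ∘ φ` commutes with `G` for a suitable `c₀ ∈ G` (`exists_deck_commute`).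
-/

set_option autoImplicit false
set_option linter.unusedSectionVars false

namespace Fermat.Agent.S33.GalP

open AlgebraicCurve Fermat.Agent.Lib.RR Fermat.Agent.GAL Fermat.Agent.GAL.RED Fermat.Agent.DR.Abs
  Fermat.Agent.S33.Cover

variable {K F E k : Type*} [Field K] [Field F] [Field E] [Algebra K F] [Algebra K E] [Algebra F E]
  [IsScalarTower K F E] [Field k] {ι : Type*} {Fb : ι → Type*} [∀ i, Field (Fb i)]
  [∀ i, Algebra k (Fb i)] {Nd : Type*}

variable (K) in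
/-- A deck transformation, as a semilinear automorphism. -/
noncomputable def deck (c : E ≃ₐ[F] E) : SemilinearAut K E :=
  SemilinearAut.ofAlgAut (c.restrictScalars K)

@[simp] theorem deck_smul (c : E ≃ₐ[F] E) (y : E) : deck K c • y = c y := rfl

theorem IsLift.mul {G : Type*} {T' : MultiRed K E k (fun j : ι × G => Fb j.1)}
    {φ₁ φ₂ : SemilinearAut K E} {π₁ π₂ : ι → Equiv.Perm G} (h₁ : IsLift T' φ₁ π₁)
    (h₂ : IsLift T' φ₂ π₂) : IsLift T' (φ₁ * φ₂) (fun i => (π₂ i).trans (π₁ i)) where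
  mem := fun y hy => by
    rw [mul_smul]
    exact h₁.mem _ (h₂.mem y hy)
  red := fun i g y hy => by
    rw [mul_smul]
    exact (h₁.red i _ _ (h₂.mem y hy)).trans (h₂.red i g y hy)

theorem deck_mem_O {T : MultiRed K F k Fb}
    {T' : MultiRed K E k (fun j : ι × (E ≃ₐ[F] E) => Fb j.1)} (h : SplitCover T T')
    (c : E ≃ₐ[F] E) {y : E} (hy : y ∈ T'.O) : c y ∈ T'.O := by
  rintro ⟨i, g⟩
  have := (h.map_mem_iff i (c⁻¹ * g) c y).2 (hy _)
  rwa [mul_inv_cancel_left] at this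

theorem isLift_deck {T : MultiRed K F k Fb}
    {T' : MultiRed K E k (fun j : ι × (E ≃ₐ[F] E) => Fb j.1)} (h : SplitCover T T')
    (c : E ≃ₐ[F] E) : IsLift T' (deck K c) (fun _ => Equiv.mulLeft c) where
  mem := fun _ hy => deck_mem_O h c hy
  red := fun i g y _ => h.red_map i g c y

/-- A semilinear automorphism of `E` which preserves `F` normalises the group of the deck transformations. -/
theorem exists_conj (φ : SemilinearAut K E) (φF : SemilinearAut K F)
    (hφ : ∀ y : F, φ • algebraMap F E y = algebraMap F E (φF • y)) (c : E ≃ₐ[F] E) :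
    ∃ c' : E ≃ₐ[F] E, ∀ y : E, φ • c y = c' (φ • y) := by
  have hinv : ∀ y : F, φ⁻¹ • algebraMap F E y = algebraMap F E (φF⁻¹ • y) := fun y => by
    rw [inv_smul_eq_iff, hφ, smul_inv_smul]
  refine ⟨AlgEquiv.ofRingEquiv
    (f := ((SemilinearAut.toRingAut φ).symm.trans c.toRingEquiv).trans (SemilinearAut.toRingAut φ))
    (fun y => ?_), fun y => ?_⟩
  · show φ • c (φ⁻¹ • algebraMap F E y) = algebraMap F E y
    rw [hinv, c.commutes, hφ, smul_inv_smul]
  · show φ • c y = φ • c (φ⁻¹ • φ • y)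
    rw [inv_smul_smul]

variable [IsFF K E] [IsAlgClosed K] [∀ i, IsFF k (Fb i)] [IsAlgClosed k] [Fintype ι]
  [Fintype (E ≃ₐ[F] E)] [Fintype Nd]

/-- **A lift which fixes one valuation commutes with the deck transformations.** -/
theorem commute_of_fix {T : MultiRed K F k Fb}
    {T' : MultiRed K E k (fun j : ι × (E ≃ₐ[F] E) => Fb j.1)} (hC : SplitCover T T') {x : E}
    {N' : NodeData k (fun j : ι × (E ≃ₐ[F] E) => Fb j.1) Nd} {a₀ : ℕ}
    (h : IsPreNodal T' x N' a₀) {ψ : SemilinearAut K E}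
    {π : ι → Equiv.Perm (E ≃ₐ[F] E)} (hψ : IsLift T' ψ π) (hx : ψ • x = x) {i₀ : ι}
    (hfix : π i₀ 1 = 1)
    (hnorm : ∀ c : E ≃ₐ[F] E, ∃ c' : E ≃ₐ[F] E, ∀ y : E, ψ • c y = c' (ψ • y))
    (c : E ≃ₐ[F] E) (y : E) : ψ • c y = c (ψ • y) := by
  classical
  obtain ⟨c', hc'⟩ := hnorm c
  have hπ : ∀ i g, π i g = g := rigid h hψ hx hfix
  have hred : ∀ (g : E ≃ₐ[F] E) (y : E), y ∈ T'.O →
      (T'.R (i₀, g)).red (ψ • y) = (T'.R (i₀, g)).red y := fun g y hy => by
    have := hψ.red i₀ g y hy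
    rwa [hπ] at this
  obtain ⟨y₀, hy₀⟩ := h.sep (fun j => if j = (i₀, 1) then 1 else 0) (fun _ => 1)
    (fun _ => one_ne_zero)
  simp only [one_smul] at hy₀
  have hy₀O : y₀ ∈ T'.O := fun j => (hy₀ j).1
  have e1 : (T'.R (i₀, c)).red (ψ • c y₀) = 1 := by
    rw [hred c _ (deck_mem_O hC c hy₀O)]
    have := hC.red_map i₀ 1 c y₀
    rw [mul_one] at this
    rw [this, (hy₀ (i₀, 1)).2, if_pos rfl]
  have e2 : (T'.R (i₀, c)).red (ψ • c y₀) = (T'.R (i₀, c'⁻¹ * c)).red y₀ := by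
    rw [hc']
    have := hC.red_map i₀ (c'⁻¹ * c) c' (ψ • y₀)
    rw [mul_inv_cancel_left] at this
    rw [this, hred _ _ hy₀O]
  have hcc : c' = c := by
    by_contra hne
    rw [e1, (hy₀ (i₀, c'⁻¹ * c)).2, if_neg] at e2
    · exact one_ne_zero e2
    · intro h0
      have h1 : c'⁻¹ * c = 1 := (Prod.ext_iff.1 h0).2
      exact hne (inv_mul_eq_one.1 h1)
  rw [hc', hcc]

/-- **After composition with a deck transformation, a lift commutes with the deck transformations.** -/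
theorem exists_deck_commute {T : MultiRed K F k Fb}
    {T' : MultiRed K E k (fun j : ι × (E ≃ₐ[F] E) => Fb j.1)} (hC : SplitCover T T') {x : E}
    {N' : NodeData k (fun j : ι × (E ≃ₐ[F] E) => Fb j.1) Nd} {a₀ : ℕ}
    (h : IsPreNodal T' x N' a₀) (hxG : ∀ c : E ≃ₐ[F] E, c x = x) {φ : SemilinearAut K E}
    {π : ι → Equiv.Perm (E ≃ₐ[F] E)} (hφ : IsLift T' φ π) (hx : φ • x = x)
    (hnorm : ∀ c : E ≃ₐ[F] E, ∃ c' : E ≃ₐ[F] E, ∀ y : E, φ • c y = c' (φ • y)) :
    ∃ c₀ : E ≃ₐ[F] E, ∀ (c : E ≃ₐ[F] E) (y : E),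
      (deck K c₀ * φ) • c y = c ((deck K c₀ * φ) • y) := by
  have hne : Nonempty ι := ⟨(Classical.choice h.cart.nonempty).1⟩
  obtain ⟨i₀⟩ := hne
  refine ⟨(π i₀ 1)⁻¹, commute_of_fix hC h ((isLift_deck (K := K) hC (π i₀ 1)⁻¹).mul hφ) ?_
    (i₀ := i₀) ?_ ?_⟩
  · rw [mul_smul, hx, deck_smul, hxG]
  · show (π i₀ 1)⁻¹ * π i₀ 1 = 1
    exact inv_mul_cancel _
  · intro c
    obtain ⟨c', hc'⟩ := hnorm c
    refine ⟨(π i₀ 1)⁻¹ * c' * π i₀ 1, fun y => ?_⟩
    rw [mul_smul, mul_smul, hc', deck_smul, deck_smul]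
    show _ = (π i₀ 1)⁻¹ (c' (π i₀ 1 ((π i₀ 1)⁻¹ (φ • y))))
    congr 2
    exact ((π i₀ 1).apply_symm_apply _).symm

end Fermat.Agent.S33.GalP
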