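import Fermat.Agent.GAL.Model

/-!
# S33 / GalP : the Kummer extension `kumField m U`, extension of semilinear automorphisms, Kummer computation

* `kumField m U` : the subfield of `AlgebraicClosure F` generated by the `m`-th roots of the elements of `U ⊆ F`;
  finite (`U` finite, `0 < m`), Galois (characteristic `0`), generated by the roots (`adjoin_roots_eq_top`).
* `exists_ext` : a semilinear automorphism `σ` of `F` which permutes `U` modulo `m`-th powers extends to `kumField m U`.
* `kummer_rigid` : (any `E / F` finite Galois) if `ψ` extends `σ`, commutes with `Gal(E/F)`, `σ ζ = ζ ^ c` on `μ_m(K)` and `u` has an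
  `m`-th root in `E`, then `σ u = u ^ c f ^ m`.
* `smul_mk_eq` : translation to `KV K F m`.
-/

set_option autoImplicit false

noncomputable section

namespace Fermat.Agent.S33.GalP

open AlgebraicCurve Fermat.Agent.GAL

variable {K F : Type*} [Field K] [Field F] [Algebra K F]

/-- The Kummer extension of `F` generated by the `m`-th roots of the elements of `U`. -/
def kumField (m : ℕ) (U : Set F) : IntermediateField F (AlgebraicClosure F) :=
  IntermediateField.adjoin F {y | ∃ u ∈ U, y ^ m = algebraMap F (AlgebraicClosure F) u}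

variable {m : ℕ} {U : Set F}

theorem mem_kumField_of_pow {y : AlgebraicClosure F} {u : F} (hu : u ∈ U)
    (hy : y ^ m = algebraMap F (AlgebraicClosure F) u) : y ∈ kumField m U :=
  IntermediateField.subset_adjoin F _ ⟨u, hu, hy⟩

theorem kumField_finiteDimensional (hm : 0 < m) (hU : U.Finite) :
    FiniteDimensional F (kumField m U) := by
  classical
  have hfin : {y : AlgebraicClosure F | ∃ u ∈ U, y ^ m = algebraMap F (AlgebraicClosure F) u}.Finite := by
    have : {y : AlgebraicClosure F | ∃ u ∈ U, y ^ m = algebraMap F (AlgebraicClosure F) u} ⊆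
        ⋃ u ∈ U, ((Polynomial.nthRoots m (algebraMap F (AlgebraicClosure F) u)).toFinset :
          Set (AlgebraicClosure F)) := by
      rintro y ⟨u, hu, hy⟩
      refine Set.mem_biUnion hu ?_
      rw [Finset.mem_coe, Multiset.mem_toFinset, Polynomial.mem_nthRoots hm]
      exact hy
    exact (hU.biUnion (fun u _ => Finset.finite_toSet _)).subset this
  have : Finite {y : AlgebraicClosure F | ∃ u ∈ U, y ^ m = algebraMap F (AlgebraicClosure F) u} :=
    hfin.to_subtype
  exact IntermediateField.finiteDimensional_adjoin (fun x _ => Algebra.IsIntegral.isIntegral x)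

theorem kumField_normal : Normal F (kumField m U) := by
  rw [IntermediateField.normal_iff_forall_map_le]
  intro σ
  rw [kumField, IntermediateField.adjoin_map]
  apply IntermediateField.adjoin.mono
  rintro _ ⟨y, ⟨u, hu, hy⟩, rfl⟩
  refine ⟨u, hu, ?_⟩
  rw [← map_pow]
  erw [hy]
  exact σ.commutes u

theorem kumField_isGalois [CharZero F] : IsGalois F (kumField m U) :=
  haveI := kumField_normal (m := m) (U := U)
  isGalois_iff.mpr ⟨inferInstance, inferInstance⟩

theorem exists_root (hm : 0 < m) {u : F} (hu : u ∈ U) :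
    ∃ y : kumField m U, y ^ m = algebraMap F (kumField m U) u := by
  obtain ⟨y, hy⟩ := IsAlgClosed.exists_pow_nat_eq (algebraMap F (AlgebraicClosure F) u) hm
  exact ⟨⟨y, mem_kumField_of_pow hu hy⟩, Subtype.ext hy⟩

theorem adjoin_roots_eq_top :
    IntermediateField.adjoin F {y : kumField m U | ∃ u ∈ U, y ^ m = algebraMap F (kumField m U) u} = ⊤ := by
  apply IntermediateField.map_injective (kumField m U).val
  rw [IntermediateField.adjoin_map, ← AlgHom.fieldRange_eq_map, IntermediateField.fieldRange_val]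
  have : ((kumField m U).val '' {y : kumField m U | ∃ u ∈ U, y ^ m = algebraMap F (kumField m U) u}) =
      {y | ∃ u ∈ U, y ^ m = algebraMap F (AlgebraicClosure F) u} := by
    ext y
    constructor
    · rintro ⟨z, ⟨u, hu, hz⟩, rfl⟩
      exact ⟨u, hu, congrArg Subtype.val hz⟩
    · rintro ⟨u, hu, hy⟩
      exact ⟨⟨y, mem_kumField_of_pow hu hy⟩, ⟨u, hu, Subtype.ext hy⟩, rfl⟩
  rw [this]
  rfl

/-- A ring endomorphism of the algebraic closure which induces on `F` a map permuting `U` modulo `m`-th powers preserves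
`kumField m U`. -/
theorem map_mem_kumField (Φ : AlgebraicClosure F →+* AlgebraicClosure F) (s : F → F)
    (hΦ : ∀ f : F, Φ (algebraMap F (AlgebraicClosure F) f) = algebraMap F (AlgebraicClosure F) (s f))
    (hU : ∀ u ∈ U, ∃ u' ∈ U, ∃ v : F, v ≠ 0 ∧ s u = u' * v ^ m)
    {z : AlgebraicClosure F} (hz : z ∈ kumField m U) : Φ z ∈ kumField m U := by
  induction hz using IntermediateField.adjoin_induction with
  | mem y hy =>
    obtain ⟨u, hu, hy⟩ := hy
    obtain ⟨u', hu', v, hv, huv⟩ := hU u hu
    have hv' : algebraMap F (AlgebraicClosure F) v ≠ 0 := by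
      rwa [Ne, map_eq_zero]
    have h1 : (Φ y / algebraMap F (AlgebraicClosure F) v) ^ m = algebraMap F (AlgebraicClosure F) u' := by
      rw [div_pow, ← map_pow, hy, hΦ, huv, map_mul, map_pow, mul_div_assoc, div_self (pow_ne_zero _ hv'),
        mul_one]
    have h2 := mem_kumField_of_pow hu' h1
    have h3 : Φ y = (Φ y / algebraMap F (AlgebraicClosure F) v) * algebraMap F (AlgebraicClosure F) v := by
      rw [div_mul_cancel₀ _ hv']
    rw [h3]
    exact (kumField m U).mul_mem h2 ((kumField m U).algebraMap_mem v)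
  | algebraMap f =>
    rw [hΦ]
    exact (kumField m U).algebraMap_mem _
  | add x y _ _ hx hy =>
    rw [map_add]
    exact (kumField m U).add_mem hx hy
  | inv x _ hx =>
    rw [map_inv₀]
    exact (kumField m U).inv_mem hx
  | mul x y _ _ hx hy =>
    rw [map_mul]
    exact (kumField m U).mul_mem hx hy

/-- **Extension of semilinear automorphisms to the Kummer extension.** -/
theorem exists_ext (σ : SemilinearAut K F)
    (hU : ∀ u ∈ U, ∃ u' ∈ U, ∃ v : F, v ≠ 0 ∧ σ • u = u' * v ^ m)
    (hU' : ∀ u ∈ U, ∃ u' ∈ U, ∃ v : F, v ≠ 0 ∧ σ⁻¹ • u = u' * v ^ m) :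
    ∃ φ : SemilinearAut K (kumField m U),
      ∀ f : F, φ • algebraMap F (kumField m U) f = algebraMap F (kumField m U) (σ • f) := by
  let S : AlgebraicClosure F ≃+* AlgebraicClosure F :=
    IsAlgClosure.equivOfEquiv (AlgebraicClosure F) (AlgebraicClosure F) (SemilinearAut.toRingAut σ)
  have hS : ∀ f : F, S (algebraMap F (AlgebraicClosure F) f) =
      algebraMap F (AlgebraicClosure F) (σ • f) := fun f =>
    IsAlgClosure.equivOfEquiv_algebraMap _ _ _ f
  have hS' : ∀ f : F, S.symm (algebraMap F (AlgebraicClosure F) f) =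
      algebraMap F (AlgebraicClosure F) (σ⁻¹ • f) := fun f =>
    IsAlgClosure.equivOfEquiv_symm_algebraMap _ _ _ f
  have h1 : ∀ z ∈ kumField m U, S z ∈ kumField m U := fun z hz =>
    map_mem_kumField (S : AlgebraicClosure F →+* AlgebraicClosure F) (fun f => σ • f) hS hU hz
  have h2 : ∀ z ∈ kumField m U, S.symm z ∈ kumField m U := fun z hz =>
    map_mem_kumField (S.symm : AlgebraicClosure F →+* AlgebraicClosure F) (fun f => σ⁻¹ • f) hS' hU' hz
  let φE : kumField m U ≃+* kumField m U :=
    { toFun := fun z => ⟨S z, h1 z z.2⟩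
      invFun := fun z => ⟨S.symm z, h2 z z.2⟩
      left_inv := fun z => Subtype.ext (S.symm_apply_apply z)
      right_inv := fun z => Subtype.ext (S.apply_symm_apply z)
      map_mul' := fun x y => Subtype.ext (map_mul S (x : AlgebraicClosure F) y)
      map_add' := fun x y => Subtype.ext (map_add S (x : AlgebraicClosure F) y) }
  have hφE : ∀ f : F, φE (algebraMap F (kumField m U) f) = algebraMap F (kumField m U) (σ • f) :=
    fun f => Subtype.ext (hS f)
  refine ⟨⟨(φE, SemilinearAut.baseAut σ), fun a => ?_⟩, hφE⟩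
  show φE (algebraMap K (kumField m U) a) = algebraMap K (kumField m U) (SemilinearAut.baseAut σ a)
  rw [IsScalarTower.algebraMap_apply K F (kumField m U), hφE, SemilinearAut.smul_algebraMap,
    ← IsScalarTower.algebraMap_apply K F (kumField m U)]

/-! ### The Kummer computation -/

section rigid

variable {E : Type*} [Field E] [Algebra K E] [Algebra F E] [IsScalarTower K F E]

/-- an `m`-th root of unity of `E` is a constant. -/
theorem exists_const_of_pow_eq_one [IsAlgClosed K] (hm : 0 < m) {ζ : E} (hζ : ζ ^ m = 1) :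
    ∃ z : K, z ^ m = 1 ∧ algebraMap K E z = ζ := by
  have hint : IsIntegral K ζ := by
    refine ⟨Polynomial.X ^ m - 1, Polynomial.monic_X_pow_sub_C 1 hm.ne', ?_⟩
    simp [hζ]
  have h1 := IsAlgClosed.degree_eq_one_of_irreducible K (minpoly.irreducible hint)
  obtain ⟨z, hz⟩ := minpoly.mem_range_of_degree_eq_one K ζ h1
  refine ⟨z, ?_, hz⟩
  apply (algebraMap K E).injective
  rw [map_pow, hz, hζ, map_one]

theorem kummer_rigid [IsAlgClosed K] [FiniteDimensional F E] [IsGalois F E] (hm : 0 < m) (c : ℕ)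
    (σ : SemilinearAut K F) (ψ : SemilinearAut K E)
    (hψ : ∀ f : F, ψ • algebraMap F E f = algebraMap F E (σ • f))
    (hcomm : ∀ (g : E ≃ₐ[F] E) (y : E), ψ • g y = g (ψ • y))
    (hc : ∀ z : K, z ^ m = 1 → SemilinearAut.baseAut σ z = z ^ c)
    {u : F} (hu : u ≠ 0) {y : E} (hy : y ^ m = algebraMap F E u) :
    ∃ f : F, f ≠ 0 ∧ σ • u = u ^ c * f ^ m := by
  have hu' : algebraMap F E u ≠ 0 := by rwa [Ne, map_eq_zero]
  have hy0 : y ≠ 0 := by
    rintro rfl
    rw [zero_pow hm.ne'] at hy
    exact hu' hy.symm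
  have hψy : ψ • y ≠ 0 := by rwa [smul_ne_zero_iff_ne]
  have hconst : ∀ z : K, z ^ m = 1 → ψ • algebraMap K E z = algebraMap K E z ^ c := by
    intro z hz
    rw [IsScalarTower.algebraMap_apply K F E, hψ, SemilinearAut.smul_algebraMap, hc z hz, map_pow, map_pow]
  have hfix : ∀ g : E ≃ₐ[F] E, g (ψ • y / y ^ c) = ψ • y / y ^ c := by
    intro g
    have h1 : (g y / y) ^ m = 1 := by
      rw [div_pow, ← map_pow, hy, g.commutes, div_self hu']
    obtain ⟨z, hz, hzy⟩ := exists_const_of_pow_eq_one (K := K) hm h1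
    have h2 : g y = algebraMap K E z * y := by
      rw [hzy, div_mul_cancel₀ _ hy0]
    have hz0 : algebraMap K E z ≠ 0 := by
      rw [hzy]
      exact div_ne_zero (by rwa [Ne, map_eq_zero]) hy0
    rw [map_div₀, ← hcomm, map_pow, h2, smul_mul', hconst z hz, mul_pow,
      mul_div_mul_left _ _ (pow_ne_zero c hz0)]
  obtain ⟨f, hf⟩ := (IsGalois.mem_range_algebraMap_iff_fixed (F := F) (ψ • y / y ^ c)).2 hfix
  refine ⟨f, ?_, ?_⟩
  · rintro rfl
    rw [map_zero] at hf
    exact div_ne_zero hψy (pow_ne_zero c hy0) hf.symm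
  · apply (algebraMap F E).injective
    rw [← hψ, ← hy, smul_pow', map_mul, map_pow, map_pow, hf, ← hy, div_pow, ← pow_mul, ← pow_mul,
      mul_comm m c, mul_div_cancel₀ _ (pow_ne_zero _ hy0)]

/-- The Galois group of a Kummer extension is commutative. -/
theorem gal_comm [IsAlgClosed K] (hm : 0 < m) {S : Set E}
    (hS : ∀ y ∈ S, ∃ u : F, y ^ m = algebraMap F E u) (hgen : IntermediateField.adjoin F S = ⊤)
    (a b : E ≃ₐ[F] E) : a * b = b * a := by
  have hconst : ∀ (g : E ≃ₐ[F] E) (z : K), g (algebraMap K E z) = algebraMap K E z := fun g z => by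
    rw [IsScalarTower.algebraMap_apply K F E, g.commutes]
  have hroot : ∀ (g : E ≃ₐ[F] E), ∀ y ∈ S, ∃ z : K, g y = algebraMap K E z * y := by
    intro g y hy
    obtain ⟨u, hu⟩ := hS y hy
    rcases eq_or_ne y 0 with rfl | hy0
    · exact ⟨1, by simp⟩
    have h1 : (g y / y) ^ m = 1 := by
      rw [div_pow, ← map_pow, hu, g.commutes, div_self]
      rw [← hu]
      exact pow_ne_zero _ hy0
    obtain ⟨z, -, hzy⟩ := exists_const_of_pow_eq_one (K := K) hm h1
    exact ⟨z, by rw [hzy, div_mul_cancel₀ _ hy0]⟩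
  have key : ∀ z ∈ IntermediateField.adjoin F S, a (b z) = b (a z) := by
    intro z hz
    induction hz using IntermediateField.adjoin_induction with
    | mem y hy =>
      obtain ⟨za, hza⟩ := hroot a y hy
      obtain ⟨zb, hzb⟩ := hroot b y hy
      rw [hza, hzb, map_mul, map_mul, hconst, hconst, hza, hzb]
      ring
    | algebraMap f => rw [a.commutes, b.commutes, a.commutes]
    | add x y _ _ hx hy => rw [map_add, map_add, map_add, map_add, hx, hy]
    | inv x _ hx => rw [map_inv₀, map_inv₀, map_inv₀, map_inv₀, hx]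
    | mul x y _ _ hx hy => rw [map_mul, map_mul, map_mul, map_mul, hx, hy]
  ext z
  exact key z (by rw [hgen]; exact IntermediateField.mem_top)

end rigid

/-- translation to the Kummer model. -/
theorem smul_mk_eq (σ : SemilinearAut K F) (u : kummerUnits K F m) (c : ℕ) {f : F} (hf : f ≠ 0)
    (h : σ • ((u : Fˣ) : F) = ((u : Fˣ) : F) ^ c * f ^ m) : σ • KV.mk u = c • KV.mk u := by
  rw [KV.semilinear_smul_mk, ← KV.mk_pow, KV.mk_eq_mk_iff]
  refine ⟨Units.mk0 f hf, ?_⟩
  apply Units.ext
  show f ^ m * ((u : Fˣ) : F) ^ c = σ • ((u : Fˣ) : F)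
  rw [h, mul_comm]

end Fermat.Agent.S33.GalP
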