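import Fermat.Agent.S33.GalP.Perm
import Fermat.Agent.S33.GalP.Kummer
import Fermat.Agent.S33.HeckeP.Defs
import Fermat.Agent.S33.Val.Generic

/-!
# S33 / GalP : abstract assembly of (T1).  Inertia acts on the deep classes through the cyclotomic character.

`F / K` a function field with a nodal family of reductions `T`.  `DeepAll T m` : the classes of `KV K F m` which are deep for all the
valuations of `T`.  `E := kumField m (repSet T m)` : the Kummer extension generated by the `m`-th roots of (representatives of) these classes.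

* `ValContract T m`   : what is consumed from block VAL (valuation half): a finite Galois extension generated by `m`-th roots of deep
  classes carries a split family of independent reductions;
* `smul_eq_of_deepAll` : **(T1)**  `σ • s = c • s` for `s ∈ DeepAll T m`, `σ` an inertial semilinear automorphism of `F` fixing the
  coordinate `x`, `σ ζ = ζ ^ c` on `μ_m(K)`.
-/

set_option autoImplicit false
set_option linter.unusedSectionVars false
set_option linter.style.haveILetI false

noncomputable section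

namespace Fermat.Agent.S33.GalP

open AlgebraicCurve Fermat.Agent.Lib.RR Fermat.Agent.GAL Fermat.Agent.GAL.RED Fermat.Agent.DR.Abs
  Fermat.Agent.DR.Gal Fermat.Agent.S33.Cover Fermat.Agent.S33.HeckeP

universe u v w w₁ w₂ w₃

variable {K : Type u} {F : Type v} {k : Type w} [Field K] [Field F] [Algebra K F] [Field k]
  {ι : Type w₁} {Fb : ι → Type w₂} [∀ i, Field (Fb i)] [∀ i, Algebra k (Fb i)] {Nd : Type w₃}

/-- The classes which are deep for all the valuations. -/
def DeepAll (T : MultiRed K F k Fb) (m : ℕ) : AddSubgroup (KV K F m) := ⨅ i, Deep (T.R i) m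

theorem mem_DeepAll {T : MultiRed K F k Fb} {m : ℕ} {s : KV K F m} :
    s ∈ DeepAll T m ↔ ∀ i, s ∈ Deep (T.R i) m := by
  rw [DeepAll, AddSubgroup.mem_iInf]

/-- A representative of a class. -/
def rep {m : ℕ} (s : KV K F m) : kummerUnits K F m := (KV.mk_surjective s).choose

theorem mk_rep {m : ℕ} (s : KV K F m) : KV.mk (rep s) = s := (KV.mk_surjective s).choose_spec

/-- The chosen representatives of the deep classes. -/
def repSet (T : MultiRed K F k Fb) (m : ℕ) : Set F :=
  Set.range (fun s : DeepAll T m => (((rep (s : KV K F m) : kummerUnits K F m) : Fˣ) : F))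

/-- **Contract with VAL (valuation half).**  A finite Galois extension `E / F` generated by `m`-th roots of deep classes
carries a split family `T'` of independent reductions. -/
def ValContract (T : MultiRed K F k Fb) (m : ℕ) : Prop :=
  ∀ (E : Type v) [Field E] [Algebra K E] [Algebra F E] [IsScalarTower K F E] [FiniteDimensional F E]
    [IsGalois F E],
    IntermediateField.adjoin F {y : E | ∃ u : kummerUnits K F m, KV.mk u ∈ DeepAll T m ∧
      y ^ m = algebraMap F E ((u : Fˣ) : F)} = ⊤ →
    ∃ T' : MultiRed K E k (fun j : ι × (E ≃ₐ[F] E) => Fb j.1), SplitCover T T' ∧ T'.Sep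

theorem Inertial.compat {Fb₀ : Type*} [Field Fb₀] [Algebra k Fb₀] {R : RedData K F k Fb₀}
    {τ : SemilinearAut K F} (h : Inertial R τ) : Compat R τ (RingEquiv.refl _) :=
  ⟨fun y hy => (h y hy).1, fun y hy => (h y hy).2⟩

/-- an inertial automorphism permutes the chosen representatives modulo `m`-th powers. -/
theorem repSet_stable {T : MultiRed K F k Fb} {m : ℕ} (τ : SemilinearAut K F)
    (hτ : ∀ i, Inertial (T.R i) τ) :
    ∀ u ∈ repSet T m, ∃ u' ∈ repSet T m, ∃ v : F, v ≠ 0 ∧ τ • u = u' * v ^ m := by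
  rintro _ ⟨s, rfl⟩
  have hs : τ • (s : KV K F m) ∈ DeepAll T m :=
    mem_DeepAll.2 fun i => smul_mem_Deep (hτ i).compat (mem_DeepAll.1 s.2 i)
  have h1 : KV.mk (⟨semilinearUnits τ (rep (s : KV K F m)),
      semilinearUnits_mem τ _ (rep (s : KV K F m)).2⟩ : kummerUnits K F m) =
        KV.mk (rep (τ • (s : KV K F m))) := by
    rw [← KV.semilinear_smul_mk, mk_rep, mk_rep]
  obtain ⟨y, hy⟩ := (KV.mk_eq_mk_iff _ _).1 h1
  refine ⟨_, ⟨⟨τ • (s : KV K F m), hs⟩, rfl⟩, (y : F), y.ne_zero, ?_⟩
  have h2 := congrArg (fun z : Fˣ => (z : F)) hy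
  simp only [Units.val_mul, Units.val_pow_eq_pow_val] at h2
  rw [mul_comm]
  exact h2.symm

/-- **(T1), abstract form.** -/
theorem smul_eq_of_deepAll [IsFF K F] [IsAlgClosed K] [CharZero K] [∀ i, IsFF k (Fb i)]
    [IsAlgClosed k] [Fintype ι] [Fintype Nd]
    {T : MultiRed K F k Fb} {x : F} {N : NodeData k Fb Nd} {a₀ : ℕ} (hF : IsPreNodal T x N a₀)
    {m : ℕ} (hm : 0 < m) [Finite (KV K F m)] (hV : ValContract T m)
    (σ : SemilinearAut K F) (hσ : ∀ i, Inertial (T.R i) σ) (hx : σ • x = x)
    (c : ℕ) (hc : ∀ z : K, z ^ m = 1 → SemilinearAut.baseAut σ z = z ^ c)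
    {s : KV K F m} (hs : s ∈ DeepAll T m) : σ • s = c • s := by
  classical
  have hUfin : (repSet T m).Finite := Set.finite_range _
  haveI : CharZero F := charZero_of_injective_algebraMap (algebraMap K F).injective
  haveI := kumField_finiteDimensional hm hUfin
  haveI := kumField_isGalois (m := m) (U := repSet T m)
  haveI : IsFF K (kumField m (repSet T m)) :=
    Fermat.Agent.S19.ND.isFF_of_finiteDimensional K F (kumField m (repSet T m))
  have hgen : IntermediateField.adjoin F {y : kumField m (repSet T m) |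
      ∃ u : kummerUnits K F m, KV.mk u ∈ DeepAll T m ∧
        y ^ m = algebraMap F (kumField m (repSet T m)) ((u : Fˣ) : F)} = ⊤ := by
    rw [eq_top_iff, ← adjoin_roots_eq_top]
    apply IntermediateField.adjoin.mono
    rintro y ⟨_, ⟨t, rfl⟩, hy⟩
    exact ⟨rep (t : KV K F m), by rw [mk_rep]; exact t.2, hy⟩
  obtain ⟨T', hC, hS'⟩ := hV (kumField m (repSet T m)) hgen
  have hgenus := Val.genus_cover_kummerUnits (K := K) hm (fun y hy => by
    obtain ⟨u, -, hu⟩ := hy
    exact ⟨u, u.2, hu⟩) hgen
  obtain ⟨b, a₁, hN'⟩ := hC.exists_isPreNodal hS' hF (Val.degree_poleDiv_algebraMap x) hgenus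
  obtain ⟨φ, hφ⟩ := exists_ext σ (repSet_stable σ hσ) (repSet_stable σ⁻¹ fun i => (hσ i).inv)
  obtain ⟨ψ, hψ, hcomm⟩ := exists_commuting hC hN' hφ hσ hx
  obtain ⟨y, hy⟩ := exists_root hm (U := repSet T m) (u := (((rep s : kummerUnits K F m) : Fˣ) : F))
    ⟨⟨s, hs⟩, rfl⟩
  obtain ⟨f, hf, hfu⟩ := kummer_rigid hm c σ ψ hψ hcomm hc (Units.ne_zero _) hy
  have := smul_mk_eq σ (rep s) c hf hfu
  rwa [mk_rep] at this

end Fermat.Agent.S33.GalP
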