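import Fermat.Agent.DR.Abs.Final
import Fermat.Agent.GAL.Model

/-!
# S33 / GalP : rigidity of the covering graph (abstract part of (T1) of the S33 plan)

`T'` a family of reductions of `E`, indexed by `ι × G`, with residue fields `Fb j.1`, which is nodal.
A semilinear automorphism `φ` of `E` which permutes the valuations `(i, g) ↦ (i, π i g)`, acts trivially on the residue fields
(`IsLift T' φ π`), fixes the coordinate `x` and fixes ONE valuation fixes ALL the valuations (`rigid`).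
-/

set_option autoImplicit false
set_option linter.unusedSectionVars false

namespace Fermat.Agent.S33.GalP

open AlgebraicCurve Fermat.Agent.Lib.RR Fermat.Agent.GAL Fermat.Agent.GAL.RED Fermat.Agent.DR.Abs

section sep

variable {k : Type*} [Field k] {V : Type*} {Fb : V → Type*} [∀ i, Field (Fb i)]
  [∀ i, Algebra k (Fb i)] {Nd : Type*} [∀ i, IsFF k (Fb i)] [IsAlgClosed k] [Fintype V] [Fintype Nd]

/-- **Separation.**  A point `β` which is not a branch of the node `e` can be separated from `e` by a glued family. -/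
theorem exists_glued_sep (N : NodeData k Fb Nd) (xb : ∀ i, Fb i) (hN : N.Adapted xb)
    (β : Σ i, Place k (Fb i)) (hβ : β.2.ord (xb β.1) = 0) (e : Nd)
    (h1 : N.branch (Sum.inl e) ≠ β) (h2 : N.branch (Sum.inr e) ≠ β) :
    ∃ a₂ : ℕ, ∀ a b : ℕ, a₂ ≤ a + b → ∃ z ∈ gluedSub N xb hN 1 a b,
      ev β.2 (z β.1) = 1 ∧ ev (N.p₂ e) (z (N.i₂ e)) = 0 := by
  classical
  have hfin : ∀ i, {P : Place k (Fb i) | (⟨i, P⟩ : Σ i, Place k (Fb i)) = β}.Finite := by
    intro i
    apply Set.Subsingleton.finite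
    intro P hP Q hQ
    have h : (⟨i, P⟩ : Σ i, Place k (Fb i)) = ⟨i, Q⟩ := hP.trans hQ.symm
    exact eq_of_heq (Sigma.mk.inj h).2
  obtain ⟨a₂, ha₂⟩ := exists_bounded_values xb hN.nonconst
    (fun i => Glued_brSet N i ∪ (hfin i).toFinset) (by
      intro i P hP
      rcases Finset.mem_union.1 hP with h | h
      · exact Glued_ord_of_mem_brSet hN i P h
      · have h' : (⟨i, P⟩ : Σ i, Place k (Fb i)) = β := (hfin i).mem_toFinset.1 h
        subst h'
        exact hβ)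
  refine ⟨a₂, fun a b hab => ?_⟩
  -- the points at which the value is `1`
  let Q : (Σ i, Place k (Fb i)) → Prop := fun γ => γ = β ∨
    ∃ e', (N.branch (Sum.inl e') = β ∨ N.branch (Sum.inr e') = β) ∧
      (N.branch (Sum.inl e') = γ ∨ N.branch (Sum.inr e') = γ)
  obtain ⟨z, hz, hv⟩ := ha₂ a b hab (fun i P => if Q ⟨i, P⟩ then 1 else 0)
  have hQ12 : ∀ e', Q (N.branch (Sum.inl e')) ↔ Q (N.branch (Sum.inr e')) := by
    intro e'
    constructor
    · rintro (h | ⟨e'', h, h' | h'⟩)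
      · exact Or.inr ⟨e', Or.inl h, Or.inr rfl⟩
      · have := Sum.inl.inj (hN.inj h')
        subst this
        exact Or.inr ⟨e'', h, Or.inr rfl⟩
      · exact absurd (hN.inj h') (by simp)
    · rintro (h | ⟨e'', h, h' | h'⟩)
      · exact Or.inr ⟨e', Or.inr h, Or.inl rfl⟩
      · exact absurd (hN.inj h') (by simp)
      · have := Sum.inr.inj (hN.inj h')
        subst this
        exact Or.inr ⟨e'', h, Or.inl rfl⟩
  have hv1 : ∀ e', ev (N.p₁ e') (z (N.i₁ e')) = if Q (N.branch (Sum.inl e')) then 1 else 0 :=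
    fun e' => hv _ _ (Finset.mem_union_left _ (Glued_p₁_mem_brSet N e'))
  have hv2 : ∀ e', ev (N.p₂ e') (z (N.i₂ e')) = if Q (N.branch (Sum.inr e')) then 1 else 0 :=
    fun e' => hv _ _ (Finset.mem_union_left _ (Glued_p₂_mem_brSet N e'))
  refine ⟨z, ⟨hz, fun e' => ?_⟩, ?_, ?_⟩
  · rw [hv1, hv2, Pi.one_apply, one_mul]
    simp only [hQ12 e']
  · have h := hv β.1 β.2 (Finset.mem_union_right _ ((hfin β.1).mem_toFinset.2 rfl))
    rw [h, if_pos (Or.inl rfl)]
  · rw [hv2, if_neg]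
    rintro (h | ⟨e'', h, h' | h'⟩)
    · exact h2 h
    · exact absurd (hN.inj h') (by simp)
    · have := Sum.inr.inj (hN.inj h')
      subst this
      rcases h with h | h
      · exact h1 h
      · exact h2 h

end sep

variable {K E k : Type*} [Field K] [Field E] [Algebra K E] [Field k] {ι G : Type*}
  {Fb : ι → Type*} [∀ i, Field (Fb i)] [∀ i, Algebra k (Fb i)] {Nd : Type*}

/-- `φ` permutes the valuations `(i, g) ↦ (i, π i g)` and acts trivially on the residue fields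
(GLOBAL form: only the elements which are integral for all the valuations are tested). -/
structure IsLift (T' : MultiRed K E k (fun j : ι × G => Fb j.1)) (φ : SemilinearAut K E)
    (π : ι → Equiv.Perm G) : Prop where
  mem : ∀ y : E, y ∈ T'.O → φ • y ∈ T'.O
  red : ∀ (i : ι) (g : G) (y : E), y ∈ T'.O →
    (T'.R (i, π i g)).red (φ • y) = (T'.R (i, g)).red y

section bipole

variable [IsFF K E] [IsAlgClosed K]

/-- a semilinear automorphism fixing `x` preserves `L(a (x)_∞ + b (x)_0)`. -/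
theorem smul_mem_L_bipole (φ : SemilinearAut K E) {x : E} (hx : φ • x = x) {a b : ℕ} {y : E}
    (hy : y ∈ riemannRochSpace (bipole K x a b)) : φ • y ∈ riemannRochSpace (bipole K x a b) := by
  rw [mem_riemannRochSpace_iff] at hy ⊢
  intro v
  have e1 : v.ord x = (φ⁻¹ • v).ord x := by
    have := SemilinearAut.ord_smul φ (φ⁻¹ • v) x
    rwa [smul_inv_smul, hx] at this
  have e2 : v.ord (φ • y) = (φ⁻¹ • v).ord y := by
    have := SemilinearAut.ord_smul φ (φ⁻¹ • v) y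
    rwa [smul_inv_smul] at this
  rcases hy (φ⁻¹ • v) with h | h
  · left
    rw [h, smul_zero]
  · right
    rw [bipole_apply] at h ⊢
    rw [e1, e2]
    exact h

end bipole

variable [IsFF K E] [IsAlgClosed K] [∀ i, IsFF k (Fb i)] [IsAlgClosed k] [Fintype ι] [Fintype G]
  [Fintype Nd]

/-- the reduction of `L(a (x)_∞ + b (x)_0)` is stable under the permutation. -/
theorem IsLift.mem_redSub {T' : MultiRed K E k (fun j : ι × G => Fb j.1)} {φ : SemilinearAut K E}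
    {π : ι → Equiv.Perm G} (hφ : IsLift T' φ π) {x : E} (hx : φ • x = x) {a b : ℕ}
    {z : ∀ j : ι × G, Fb j.1} (hz : z ∈ T'.redSub (riemannRochSpace (bipole K x a b))) :
    (fun j : ι × G => z (j.1, (π j.1).symm j.2)) ∈
      T'.redSub (riemannRochSpace (bipole K x a b)) := by
  obtain ⟨y, hyL, hyO, rfl⟩ := hz
  refine ⟨φ • y, smul_mem_L_bipole φ hx hyL, hφ.mem y hyO, ?_⟩
  funext ⟨i, g⟩
  obtain ⟨g₁, rfl⟩ := (π i).surjective g
  show (T'.R (i, π i g₁)).red (φ • y) = (T'.R (i, (π i).symm (π i g₁))).red y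
  rw [Equiv.symm_apply_apply]
  exact hφ.red i g₁ y hyO

/-- the reduction of the coordinate is invariant. -/
theorem IsLift.red_coord {T' : MultiRed K E k (fun j : ι × G => Fb j.1)} {φ : SemilinearAut K E}
    {π : ι → Equiv.Perm G} (hφ : IsLift T' φ π) {x : E} (hx : φ • x = x) (hxO : x ∈ T'.O) (i : ι)
    (g : G) : (T'.R (i, π i g)).red x = (T'.R (i, g)).red x := by
  have := hφ.red i g x hxO
  rwa [hx] at this

theorem rigid_aux₁ {T' : MultiRed K E k (fun j : ι × G => Fb j.1)} {x : E}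
    {N' : NodeData k (fun j : ι × G => Fb j.1) Nd} {a₀ : ℕ} (h : IsPreNodal T' x N' a₀)
    {φ : SemilinearAut K E} {π : ι → Equiv.Perm G} (hφ : IsLift T' φ π) (hx : φ • x = x) (e : Nd)
    (hfix : π (N'.i₁ e).1 (N'.i₁ e).2 = (N'.i₁ e).2) :
    π (N'.i₂ e).1 (N'.i₂ e).2 = (N'.i₂ e).2 := by
  by_contra hne
  have hxO : x ∈ T'.O := T'.mem_of_red_ne_zero (fun j h0 =>
    h.nonconst j ⟨0, by rw [map_zero]; exact h0.symm⟩)
  have hne' : (π (N'.i₂ e).1).symm (N'.i₂ e).2 ≠ (N'.i₂ e).2 := by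
    intro h0
    apply hne
    conv_lhs => rw [← h0]
    rw [Equiv.apply_symm_apply]
  have hfix' : (π (N'.i₁ e).1).symm (N'.i₁ e).2 = (N'.i₁ e).2 := by
    conv_lhs => rw [← hfix]
    rw [Equiv.symm_apply_apply]
  obtain ⟨a₂, ha₂⟩ := exists_glued_sep N' (T'.red x) h.adapted
    ⟨((N'.i₂ e).1, (π (N'.i₂ e).1).symm (N'.i₂ e).2), N'.p₂ e⟩ (by
      show (N'.p₂ e).ord ((T'.R ((N'.i₂ e).1, (π (N'.i₂ e).1).symm (N'.i₂ e).2)).red x) = 0
      rw [← hφ.red_coord hx hxO, Equiv.apply_symm_apply]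
      exact h.unit₂ e) e (by
      intro h0
      have h1 : N'.i₁ e = ((N'.i₂ e).1, (π (N'.i₂ e).1).symm (N'.i₂ e).2) :=
        congrArg Sigma.fst h0
      have h2 : (N'.i₁ e).1 = (N'.i₂ e).1 := (Prod.ext_iff.1 h1).1
      have h3 : (N'.i₁ e).2 = (π (N'.i₂ e).1).symm (N'.i₂ e).2 := (Prod.ext_iff.1 h1).2
      apply hne'
      rw [← h3]
      rw [h2] at hfix
      rw [Equiv.eq_symm_apply, hfix] at h3
      exact h3) (by
      intro h0
      have h1 : N'.i₂ e = ((N'.i₂ e).1, (π (N'.i₂ e).1).symm (N'.i₂ e).2) :=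
        congrArg Sigma.fst h0
      exact hne' (Prod.ext_iff.1 h1).2.symm)
  obtain ⟨z, hz, hz1, hz0⟩ := ha₂ (a₂ + a₀) 0 (by omega)
  have hzr : z ∈ T'.redSub (riemannRochSpace (bipole K x (a₂ + a₀) 0)) := by
    rw [h.redSub_eq (by omega)]
    exact hz
  have hz' := hφ.mem_redSub hx hzr
  rw [h.redSub_eq (by omega)] at hz'
  have g1 := hz.2 e
  have g2 := hz'.2 e
  rw [Pi.one_apply, one_mul] at g1 g2
  have g2' : ev (N'.p₁ e) (z ((N'.i₁ e).1, (π (N'.i₁ e).1).symm (N'.i₁ e).2)) =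
      ev (N'.p₂ e) (z ((N'.i₂ e).1, (π (N'.i₂ e).1).symm (N'.i₂ e).2)) := g2
  rw [hfix'] at g2'
  have g3 : ev (N'.p₁ e) (z (N'.i₁ e)) = 1 := g2'.trans hz1
  rw [g1, hz0] at g3
  exact zero_ne_one g3

theorem rigid_aux₂ {T' : MultiRed K E k (fun j : ι × G => Fb j.1)} {x : E}
    {N' : NodeData k (fun j : ι × G => Fb j.1) Nd} {a₀ : ℕ} (h : IsPreNodal T' x N' a₀)
    {φ : SemilinearAut K E} {π : ι → Equiv.Perm G} (hφ : IsLift T' φ π) (hx : φ • x = x) (e : Nd)
    (hfix : π (N'.i₂ e).1 (N'.i₂ e).2 = (N'.i₂ e).2) :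
    π (N'.i₁ e).1 (N'.i₁ e).2 = (N'.i₁ e).2 := by
  by_contra hne
  have hxO : x ∈ T'.O := T'.mem_of_red_ne_zero (fun j h0 =>
    h.nonconst j ⟨0, by rw [map_zero]; exact h0.symm⟩)
  have hne' : (π (N'.i₁ e).1).symm (N'.i₁ e).2 ≠ (N'.i₁ e).2 := by
    intro h0
    apply hne
    conv_lhs => rw [← h0]
    rw [Equiv.apply_symm_apply]
  have hfix' : (π (N'.i₂ e).1).symm (N'.i₂ e).2 = (N'.i₂ e).2 := by
    conv_lhs => rw [← hfix]
    rw [Equiv.symm_apply_apply]
  obtain ⟨a₂, ha₂⟩ := exists_glued_sep N' (T'.red x) h.adapted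
    ⟨((N'.i₁ e).1, (π (N'.i₁ e).1).symm (N'.i₁ e).2), N'.p₁ e⟩ (by
      show (N'.p₁ e).ord ((T'.R ((N'.i₁ e).1, (π (N'.i₁ e).1).symm (N'.i₁ e).2)).red x) = 0
      rw [← hφ.red_coord hx hxO, Equiv.apply_symm_apply]
      exact h.unit₁ e) e (by
      intro h0
      have h1 : N'.i₁ e = ((N'.i₁ e).1, (π (N'.i₁ e).1).symm (N'.i₁ e).2) :=
        congrArg Sigma.fst h0
      exact hne' (Prod.ext_iff.1 h1).2.symm) (by
      intro h0
      have h1 : N'.i₂ e = ((N'.i₁ e).1, (π (N'.i₁ e).1).symm (N'.i₁ e).2) :=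
        congrArg Sigma.fst h0
      have h2 : (N'.i₂ e).1 = (N'.i₁ e).1 := (Prod.ext_iff.1 h1).1
      have h3 : (N'.i₂ e).2 = (π (N'.i₁ e).1).symm (N'.i₁ e).2 := (Prod.ext_iff.1 h1).2
      apply hne'
      rw [← h3]
      rw [h2] at hfix
      rw [Equiv.eq_symm_apply, hfix] at h3
      exact h3)
  obtain ⟨z, hz, hz1, hz0⟩ := ha₂ (a₂ + a₀) 0 (by omega)
  have hzr : z ∈ T'.redSub (riemannRochSpace (bipole K x (a₂ + a₀) 0)) := by
    rw [h.redSub_eq (by omega)]
    exact hz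
  have hz' := hφ.mem_redSub hx hzr
  rw [h.redSub_eq (by omega)] at hz'
  have g2 := hz'.2 e
  rw [Pi.one_apply, one_mul] at g2
  have g2' : ev (N'.p₁ e) (z ((N'.i₁ e).1, (π (N'.i₁ e).1).symm (N'.i₁ e).2)) =
      ev (N'.p₂ e) (z ((N'.i₂ e).1, (π (N'.i₂ e).1).symm (N'.i₂ e).2)) := g2
  rw [hfix'] at g2'
  have g3 : (1 : k) = ev (N'.p₂ e) (z (N'.i₂ e)) := hz1.symm.trans g2'
  rw [hz0] at g3
  exact one_ne_zero g3

/-- **Rigidity.** -/
theorem rigid {T' : MultiRed K E k (fun j : ι × G => Fb j.1)} {x : E}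
    {N' : NodeData k (fun j : ι × G => Fb j.1) Nd} {a₀ : ℕ} (h : IsPreNodal T' x N' a₀)
    {φ : SemilinearAut K E} {π : ι → Equiv.Perm G} (hφ : IsLift T' φ π) (hx : φ • x = x)
    {i₀ : ι} {g₀ : G} (hfix : π i₀ g₀ = g₀) (i : ι) (g : G) : π i g = g := by
  classical
  have hc := h.connected (fun j : ι × G => if π j.1 j.2 = j.2 then (1 : k) else 0) (by
    intro e
    by_cases h1 : π (N'.i₁ e).1 (N'.i₁ e).2 = (N'.i₁ e).2
    · rw [if_pos h1, if_pos (rigid_aux₁ h hφ hx e h1)]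
    · rw [if_neg h1, if_neg (fun h2 => h1 (rigid_aux₂ h hφ hx e h2))]) (i, g) (i₀, g₀)
  simp only [hfix, if_true] at hc
  by_contra hne
  rw [if_neg hne] at hc
  exact zero_ne_one hc

end Fermat.Agent.S33.GalP
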