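import Fermat.Agent.S33.GalP.Main
import Fermat.Agent.S33.Val.Main

/-!
# S33 / GalP : `ValContract` from the main theorem of block VAL.
-/

set_option autoImplicit false
set_option linter.unusedSectionVars false

namespace Fermat.Agent.S33.GalP

open AlgebraicCurve Fermat.Agent.GAL Fermat.Agent.GAL.RED Fermat.Agent.DR.Abs
  Fermat.Agent.S33.Cover Fermat.Agent.S33.HeckeP Fermat.Agent.S36.Abs

universe u v w w₁ w₂

variable {K : Type u} {F : Type v} {k : Type w} [Field K] [Field F] [Algebra K F] [Field k]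
  {ι : Type w₁} {Fb : ι → Type w₂} [∀ i, Field (Fb i)] [∀ i, Algebra k (Fb i)]

theorem valContract_of [IsAlgClosed K] [Fintype ι] [Infinite k] {m : ℕ} (hm : (m : K) ≠ 0)
    (T : MultiRed K F k Fb) (hS : T.Sep) (hsc : HasScales T) (hr : RankOne T)
    (hA : ∃ c : K, c ≠ 0 ∧ c⁻¹ ∉ T.A) : ValContract T m := by
  intro E _ _ _ _ _ _ hgen
  obtain ⟨T', -, hC, hS'⟩ := Val.exists_splitCover_of_deep hm T hS hsc hr hA hgen (by
    rintro y ⟨u, hu, hy⟩ i c hc
    obtain ⟨f, hfu, -, h, hh, hf⟩ := mem_Deep_iff.1 (mem_DeepAll.1 hu i) c hc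
    obtain ⟨v, hv⟩ := (KV.mk_eq_mk_iff f u).1 hfu
    refine ⟨(v : F), v.ne_zero, h, hh, ?_⟩
    have h2 := congrArg (fun z : Fˣ => (z : F)) hv
    simp only [Units.val_mul, Units.val_pow_eq_pow_val] at h2
    rw [mul_pow, hy, ← map_pow, ← map_mul, ← hf, ← h2, mul_comm])
  exact ⟨T', hC, hS'⟩

end Fermat.Agent.S33.GalP
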